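import Fermat.Agent.SchaefferEquation.Polynomial
import Fermat.Agent.ShoreyTijdeman.Split
import Fermat.Agent.RootApproximation.Measure
import Mathlib.Data.Nat.Factorization.Basic

/-!
# Schäffer's equation

An integral multiple of the polynomial has the values `D b y ^ q`. Even `k`: three simple roots.
Odd `k`: `m` and `m + 1` are `a u ^ r` and `c v ^ r` with bounded `a`, `c`, and `r ≥ 3` the part of
`q` left by the double roots.
-/

set_option autoImplicit false

noncomputable section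

namespace FA.SchaefferEquation

open Polynomial Finset

/-- The equation through an integral multiple. -/
theorem multiple_eval {k : ℕ} (hk : k ≠ 0) {D : ℤ} {f : ℤ[X]}
    (hf : f.map (Int.castRingHom ℚ) = C (D : ℚ) * sumPoly k) {m b y q : ℕ}
    (he : ∑ i ∈ range m, (i + 1) ^ k = b * y ^ q) :
    D * b * (y : ℤ) ^ q = f.eval (m : ℤ) := by
  have h1 := eval_map_apply (f := Int.castRingHom ℚ) (p := f) (m : ℤ)
  rw [hf, eval_mul, eval_C, eq_intCast, Int.cast_natCast, sumPoly_eval_nat hk, eq_intCast] at h1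
  have h2 : (∑ i ∈ range m, ((i : ℚ) + 1) ^ k) = (b : ℚ) * (y : ℚ) ^ q := by exact_mod_cast he
  rw [h2] at h1
  have h3 : ((D * b * (y : ℤ) ^ q : ℤ) : ℚ) = ((f.eval (m : ℤ) : ℤ) : ℚ) := by
    rw [← h1]; push_cast; ring
  exact_mod_cast h3

/-- **The exponents are bounded.** -/
theorem exponent_bounded {k : ℕ} (hk : k ≠ 0) {b : ℕ} (hb : b ≠ 0) :
    ∃ M : ℕ, ∀ m y q : ℕ, 2 ≤ y → ∑ i ∈ range m, (i + 1) ^ k = b * y ^ q → q ≤ M := by
  obtain ⟨D, f, hD, hf⟩ := exists_integral_multiple (sumPoly k)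
  obtain ⟨M, hM⟩ := SchinzelTijdeman.exponent_bounded (f := f) (α := ((0 : ℚ) : ℂ))
    (β := ((-1 : ℚ) : ℂ)) (by norm_num)
    (by rw [aeval_multiple hf, sumPoly_eval_zero hk]; simp)
    (by rw [aeval_multiple hf, sumPoly_eval_neg_one]; simp)
    (mul_ne_zero hD (Int.natCast_ne_zero.2 hb))
  exact ⟨M, fun m y q hy he => hM m y q (by rw [Nat.abs_cast]; exact_mod_cast hy)
    (multiple_eval hk hf he)⟩

/-- A bound for `m` bounds everything. -/
theorem finite_of_bounded {k b : ℕ} (hb : b ≠ 0) {Q : ℕ → Prop} (hQ : ∀ q, Q q → 2 ≤ q) {B : ℕ}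
    (h : ∀ m y q : ℕ, 2 ≤ y → Q q → ∑ i ∈ range m, (i + 1) ^ k = b * y ^ q → m ≤ B) :
    {s : ℕ × ℕ × ℕ | 2 ≤ s.2.1 ∧ Q s.2.2 ∧
      ∑ i ∈ range s.1, (i + 1) ^ k = b * s.2.1 ^ s.2.2}.Finite := by
  set S := ∑ i ∈ range B, (i + 1) ^ k
  refine ((Set.finite_Iic B).prod ((Set.finite_Iic S).prod (Set.finite_Iic S))).subset ?_
  rintro ⟨m, y, q⟩ ⟨hy, hq, he⟩
  dsimp only at hy hq he
  have hm := h m y q hy hq he
  have hS : y ^ q ≤ S := (Nat.le_mul_of_pos_left _ (Nat.pos_of_ne_zero hb)).trans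
    (he ▸ sum_le_sum_of_subset (range_subset_range.2 hm))
  exact ⟨hm, (Nat.le_self_pow (by have := hQ q hq; omega) y).trans hS,
    (Nat.lt_two_pow_self.le.trans (Nat.pow_le_pow_left hy q)).trans hS⟩

/-- **Even `k`: all exponents at once.** -/
theorem even_finite {k : ℕ} (hk : Even k) (hk0 : k ≠ 0) {b : ℕ} (hb : b ≠ 0) :
    {s : ℕ × ℕ × ℕ | 2 ≤ s.2.1 ∧ 2 ≤ s.2.2 ∧
      ∑ i ∈ range s.1, (i + 1) ^ k = b * s.2.1 ^ s.2.2}.Finite := by
  obtain ⟨D, f, hD, hf⟩ := exists_integral_multiple (sumPoly k)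
  have hDq : (D : ℚ) ≠ 0 := Int.cast_ne_zero.2 hD
  set r : Fin 3 → ℚ := ![0, -1, -1 / 2]
  have hr : ∀ i, r i = 0 ∨ r i = -1 ∨ r i = -1 / 2 := fun i => by fin_cases i <;> simp [r]
  have hinj : Function.Injective fun i => (r i : ℂ) := fun i j h => by
    have h' := Rat.cast_injective (α := ℂ) h
    fin_cases i <;> fin_cases j <;> first | rfl | (exfalso; norm_num [r] at h')
  have hder : (f.derivative).map (Int.castRingHom ℚ) = C (D : ℚ) * (sumPoly k).derivative := by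
    rw [← derivative_map, hf, derivative_C_mul]
  have hfin := SchinzelTijdeman.solutions_finite (f := f) hinj
    (fun i => by rw [aeval_multiple hf, (sumPoly_simple hk hk0 (hr i)).1]; simp)
    (fun i => by
      rw [aeval_multiple hder]
      exact Rat.cast_ne_zero.2 (mul_ne_zero hDq (sumPoly_simple hk hk0 (hr i)).2))
    (mul_ne_zero hD (Int.natCast_ne_zero.2 hb))
  obtain ⟨B, hB⟩ := (hfin.image fun p => p.1.natAbs).bddAbove
  refine finite_of_bounded hb (Q := fun q => 2 ≤ q) (fun _ h => h) (B := B)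
    fun m y q hy hq he => hB ⟨((m : ℤ), (y : ℤ), q), ⟨?_, hq, multiple_eval hk0 hf he⟩, rfl⟩
  show 2 ≤ |(y : ℤ)|
  rw [Nat.abs_cast]
  exact_mod_cast hy

/-- A number whose exponents are multiples of `r` outside `N`. -/
theorem exists_mul_pow {N m r : ℕ} (hN : N ≠ 0) (hm : m ≠ 0) (hr : r ≠ 0)
    (h : ∀ p : ℕ, p.Prime → ¬ p ∣ N → r ∣ m.factorization p) :
    ∃ a u : ℕ, 0 < a ∧ 0 < u ∧ a ≤ N ^ r ∧ m = a * u ^ r := by
  refine ⟨∏ p ∈ m.primeFactors, p ^ (m.factorization p % r),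
    ∏ p ∈ m.primeFactors, p ^ (m.factorization p / r),
    prod_pos fun p hp => pow_pos (Nat.pos_of_mem_primeFactors hp) _,
    prod_pos fun p hp => pow_pos (Nat.pos_of_mem_primeFactors hp) _, ?_, ?_⟩
  · calc ∏ p ∈ m.primeFactors, p ^ (m.factorization p % r)
        = ∏ p ∈ m.primeFactors with p ∣ N, p ^ (m.factorization p % r) := by
          refine (prod_filter_of_ne fun p hp hne => ?_).symm
          by_contra hpN
          obtain ⟨t, ht⟩ := h p (Nat.prime_of_mem_primeFactors hp) hpN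
          exact hne (by rw [ht, Nat.mul_mod_right, pow_zero])
      _ ≤ ∏ p ∈ N.primeFactors, p ^ r := by
          refine (prod_le_prod (fun p _ => Nat.zero_le _) fun p hp => Nat.pow_le_pow_right
            (Nat.pos_of_mem_primeFactors (mem_filter.1 hp).1)
            (Nat.mod_lt _ (Nat.pos_of_ne_zero hr)).le).trans ?_
          refine prod_le_prod_of_subset_of_one_le' (fun p hp => ?_)
            fun p hp _ => Nat.one_le_pow _ _ (Nat.pos_of_mem_primeFactors hp)
          obtain ⟨h1, h2⟩ := mem_filter.1 hp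
          exact Nat.mem_primeFactors.2 ⟨Nat.prime_of_mem_primeFactors h1, h2, hN⟩
      _ ≤ N ^ r := by
          rw [prod_pow]
          exact Nat.pow_le_pow_left (Nat.le_of_dvd (Nat.pos_of_ne_zero hN)
            (Nat.prod_primeFactors_dvd N)) r
  · conv_lhs => rw [← Nat.prod_factorization_pow_eq_self hm]
    rw [← prod_pow, ← prod_mul_distrib, Finsupp.prod, Nat.support_factorization]
    refine prod_congr rfl fun p _ => ?_
    rw [← pow_mul, ← pow_add, mul_comm (m.factorization p / r) r, Nat.mod_add_div]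

/-- Consecutive numbers `a u ^ r`, `c v ^ r` are bounded. -/
theorem consecutive_le {N m r : ℕ} (hN : N ≠ 0) (hm : m ≠ 0) (hr : 3 ≤ r)
    (h1 : ∀ p : ℕ, p.Prime → ¬ p ∣ N → r ∣ m.factorization p)
    (h2 : ∀ p : ℕ, p.Prime → ¬ p ∣ N → r ∣ (m + 1).factorization p) :
    m ≤ N ^ r * (1 + ∑ a ∈ range (N ^ r + 1), ∑ c ∈ range (N ^ r + 1),
      RootApproximation.solutionBound c a 1) ^ r := by
  obtain ⟨a, u, ha, hu, haN, he1⟩ := exists_mul_pow hN hm (by omega) h1
  obtain ⟨c, v, hc, hv, hcN, he2⟩ := exists_mul_pow hN m.succ_ne_zero (by omega) h2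
  set V := 1 + ∑ a ∈ range (N ^ r + 1), ∑ c ∈ range (N ^ r + 1),
    RootApproximation.solutionBound c a 1 with hV
  have huV : u ≤ V := by
    rcases lt_or_ge (max v u) 2 with h | h
    · omega
    · refine (RootApproximation.solution_le hc ha hv hu h hr (c := 1) one_ne_zero (by
        have e : ((c * v ^ r : ℕ) : ℤ) = ((a * u ^ r : ℕ) : ℤ) + 1 := by
          rw [← he1, ← he2]; push_cast; rfl
        push_cast at e
        linarith)).2.1.trans ?_
      refine le_add_left (le_trans ?_ (single_le_sum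
        (f := fun a => ∑ c ∈ range (N ^ r + 1), RootApproximation.solutionBound c a 1)
        (fun _ _ => Nat.zero_le _) (mem_range.2 (Nat.lt_succ_of_le haN))))
      exact single_le_sum (f := fun c => RootApproximation.solutionBound c a 1)
        (fun _ _ => Nat.zero_le _) (mem_range.2 (Nat.lt_succ_of_le hcN))
  rw [he1]
  exact Nat.mul_le_mul haN (Nat.pow_le_pow_left huV r)

/-- At a prime outside `N` only the double factor meets the root. -/
theorem dvd_factorization {N y q r : ℕ} {A x w : ℤ} (hA : A ≠ 0) (hAN : A.natAbs ∣ N) {e : ℤ}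
    (heN : e.natAbs ∣ N) (hy : y ≠ 0) (hr : ∀ t, q ∣ 2 * t → r ∣ t) (hx : x ≠ 0)
    (hxw : x ∣ w - e) (heq : A * (y : ℤ) ^ q = x ^ 2 * w) (hw : w ≠ 0) {p : ℕ} (_hp : p.Prime)
    (hpN : ¬ p ∣ N) : r ∣ x.natAbs.factorization p := by
  rcases eq_or_ne (x.natAbs.factorization p) 0 with h0 | h0
  · rw [h0]
    exact dvd_zero r
  refine hr _ ⟨y.factorization p, ?_⟩
  have h := congrArg (fun z : ℤ => z.natAbs.factorization p) heq
  simp only [Int.natAbs_mul, Int.natAbs_pow, Int.natAbs_natCast] at h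
  rw [Nat.factorization_mul (Int.natAbs_ne_zero.2 hA) (pow_ne_zero _ hy),
    Nat.factorization_mul (pow_ne_zero _ (Int.natAbs_ne_zero.2 hx)) (Int.natAbs_ne_zero.2 hw),
    Nat.factorization_pow, Nat.factorization_pow] at h
  simp only [Finsupp.coe_add, Finsupp.coe_smul, Pi.add_apply, Pi.smul_apply, smul_eq_mul] at h
  rw [Nat.factorization_eq_zero_of_not_dvd fun hd => hpN (hd.trans hAN), zero_add] at h
  have hpx : (p : ℤ) ∣ x := Int.natCast_dvd.2 (Nat.dvd_of_factorization_pos h0)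
  have hpw : ¬ (p : ℤ) ∣ w := fun hd => hpN ((Int.natCast_dvd.1 (by
    have := dvd_sub hd (hpx.trans hxw)
    rwa [sub_sub_cancel] at this)).trans heN)
  rw [Nat.factorization_eq_zero_of_not_dvd fun hd => hpw (Int.natCast_dvd.2 hd), add_zero] at h
  exact h.symm

/-- **Odd `k`: all exponents but `2` and `4`.** -/
theorem odd_finite {k : ℕ} (hk : Odd k) {b : ℕ} (hb : b ≠ 0) :
    {s : ℕ × ℕ × ℕ | 2 ≤ s.2.1 ∧ (3 ≤ s.2.2 ∧ s.2.2 ≠ 4 ∨ k = 1 ∧ 3 ≤ s.2.2) ∧
      ∑ i ∈ range s.1, (i + 1) ^ k = b * s.2.1 ^ s.2.2}.Finite := by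
  have hk0 : k ≠ 0 := hk.pos.ne'
  obtain ⟨M, hM⟩ := exponent_bounded hk0 hb
  rcases (show k = 1 ∨ 3 ≤ k by obtain ⟨j, rfl⟩ := hk; omega) with rfl | hk3
  · obtain ⟨D, f, hD, hf⟩ := exists_integral_multiple (sumPoly 1)
    set r : Fin 2 → ℚ := ![0, -1]
    have hr : ∀ i, r i = 0 ∨ r i = -1 := fun i => by fin_cases i <;> simp [r]
    have hinj : Function.Injective fun i => (r i : ℂ) := fun i j h => by
      have h' := Rat.cast_injective (α := ℂ) h
      fin_cases i <;> fin_cases j <;> first | rfl | (exfalso; norm_num [r] at h')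
    have hder : (f.derivative).map (Int.castRingHom ℚ) = C (D : ℚ) * (sumPoly 1).derivative := by
      rw [← derivative_map, hf, derivative_C_mul]
    obtain ⟨B, hB⟩ := ((ShoreyTijdeman.power_values_finite (f := f) hinj
      (fun i => by rw [aeval_multiple hf, (sumPoly_one_simple (hr i)).1]; simp)
      (fun i => by
        rw [aeval_multiple hder]
        exact Rat.cast_ne_zero.2
          (mul_ne_zero (Int.cast_ne_zero.2 hD) (sumPoly_one_simple (hr i)).2))
      (mul_ne_zero hD (Int.natCast_ne_zero.2 hb))).image Int.natAbs).bddAbove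
    refine finite_of_bounded hb (Q := fun q => 3 ≤ q ∧ q ≠ 4 ∨ (1 : ℕ) = 1 ∧ 3 ≤ q)
      (fun q h => by omega) (B := B) fun m y q _ hq he => ?_
    exact hB ⟨(m : ℤ), ⟨(y : ℤ), q, by omega, multiple_eval hk0 hf he⟩, Int.natAbs_natCast m⟩
  obtain ⟨g₀, hS, hg0, hg1⟩ := sumPoly_odd_factor hk hk3
  obtain ⟨D, g, hD, hg⟩ := exists_integral_multiple g₀
  set f : ℤ[X] := X ^ 2 * (X + 1) ^ 2 * g with hfdef
  have hf : f.map (Int.castRingHom ℚ) = C (D : ℚ) * sumPoly k := by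
    simp only [hfdef, Polynomial.map_mul, Polynomial.map_pow, Polynomial.map_add,
      Polynomial.map_one, map_X, hg, hS]
    ring
  have he0 : ∀ r : ℤ, g₀.eval (r : ℚ) ≠ 0 → g.eval r ≠ 0 := fun r h h0 => h (by
    have h1 := eval_map_apply (f := Int.castRingHom ℚ) (p := g) r
    rw [hg, h0, map_zero, eval_mul, eval_C, eq_intCast] at h1
    exact (mul_eq_zero.1 h1).resolve_left (Int.cast_ne_zero.2 hD))
  have hg0' := he0 0 (by simpa using hg0)
  have hg1' := he0 (-1) (by simpa using hg1)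
  set N := (D * b).natAbs * (g.eval 0).natAbs * (g.eval (-1)).natAbs with hNdef
  have hN : N ≠ 0 := mul_ne_zero (mul_ne_zero (Int.natAbs_ne_zero.2
    (mul_ne_zero hD (Int.natCast_ne_zero.2 hb))) (Int.natAbs_ne_zero.2 hg0'))
    (Int.natAbs_ne_zero.2 hg1')
  set B := ∑ r ∈ range (M + 1), N ^ r * (1 + ∑ a ∈ range (N ^ r + 1), ∑ c ∈ range (N ^ r + 1),
    RootApproximation.solutionBound c a 1) ^ r
  refine finite_of_bounded hb (Q := fun q => 3 ≤ q ∧ q ≠ 4 ∨ k = 1 ∧ 3 ≤ q)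
    (fun q h => by omega) (B := B) fun m y q hy hq he => ?_
  rcases eq_or_ne m 0 with rfl | hm
  · exact Nat.zero_le _
  set r := q / Nat.gcd q 2 with hr
  have hgcd : Nat.gcd q 2 = 1 ∧ q % 2 = 1 ∨ Nat.gcd q 2 = 2 ∧ q % 2 = 0 := by
    rcases Nat.mod_two_eq_zero_or_one q with h | h
    · exact Or.inr ⟨Nat.gcd_eq_right (Nat.dvd_of_mod_eq_zero h), h⟩
    · exact Or.inl ⟨Nat.Coprime.symm ((Nat.prime_two.coprime_iff_not_dvd).2 (by omega)), h⟩
  have hr3 : 3 ≤ r := by rcases hgcd with ⟨e, h⟩ | ⟨e, h⟩ <;> rw [hr, e] <;> omega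
  have hrdvd : ∀ t, q ∣ 2 * t → r ∣ t := fun t ht => by
    rcases hgcd with ⟨e, h⟩ | ⟨e, h⟩
    · rw [hr, e, Nat.div_one]
      exact (Nat.Coprime.dvd_mul_left e).1 ht
    · rw [hr, e]
      obtain ⟨j, rfl⟩ := Nat.dvd_of_mod_eq_zero h
      rw [Nat.mul_div_cancel_left _ two_pos]
      exact Nat.dvd_of_mul_dvd_mul_left two_pos ht
  have hev : D * b * (y : ℤ) ^ q = (m : ℤ) ^ 2 * ((m : ℤ) + 1) ^ 2 * g.eval (m : ℤ) := by
    rw [multiple_eval hk0 hf he, hfdef]
    simp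
  have hgm : g.eval (m : ℤ) ≠ 0 := fun h0 => by
    rw [h0, mul_zero] at hev
    simp [hD, hb, show y ≠ 0 by omega] at hev
  have hm' : (m : ℤ) ≠ 0 := Int.natCast_ne_zero.2 hm
  have hm1 : (m : ℤ) + 1 ≠ 0 := by omega
  have hA : D * b ≠ 0 := mul_ne_zero hD (Int.natCast_ne_zero.2 hb)
  have hAN : (D * b).natAbs ∣ N := dvd_mul_of_dvd_left (dvd_mul_right _ _) _
  refine (consecutive_le hN hm hr3 (fun p hp hpN => ?_) (fun p hp hpN => ?_)).trans
    (single_le_sum (f := fun r => N ^ r * (1 + ∑ a ∈ range (N ^ r + 1),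
      ∑ c ∈ range (N ^ r + 1), RootApproximation.solutionBound c a 1) ^ r)
      (fun _ _ => Nat.zero_le _) (mem_range.2 (by
        have := hM m y q hy he
        have := Nat.div_le_self q (Nat.gcd q 2)
        omega)))
  · have h1 := dvd_factorization hA hAN (e := g.eval 0)
      (dvd_mul_of_dvd_left (dvd_mul_left _ _) _) (by omega : y ≠ 0) hrdvd hm'
      (w := ((m : ℤ) + 1) ^ 2 * g.eval (m : ℤ)) ?_ (by rw [hev]; ring)
      (mul_ne_zero (pow_ne_zero 2 hm1) hgm) hp hpN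
    · rwa [Int.natAbs_natCast] at h1
    · have h2 := sub_dvd_eval_sub (m : ℤ) 0 g
      rw [sub_zero] at h2
      have h3 : (m : ℤ) ∣ ((m : ℤ) + 2) * m * g.eval (m : ℤ) :=
        dvd_mul_of_dvd_left (dvd_mul_left _ _) _
      rw [show ((m : ℤ) + 1) ^ 2 * g.eval (m : ℤ) - g.eval 0 =
        ((m : ℤ) + 2) * m * g.eval (m : ℤ) + (g.eval (m : ℤ) - g.eval 0) by ring]
      exact dvd_add h3 h2
  · have h1 := dvd_factorization hA hAN (e := g.eval (-1)) (dvd_mul_left _ _)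
      (by omega : y ≠ 0) hrdvd hm1 (w := (m : ℤ) ^ 2 * g.eval (m : ℤ)) ?_ (by rw [hev]; ring)
      (mul_ne_zero (pow_ne_zero 2 hm') hgm) hp hpN
    · rwa [show ((m : ℤ) + 1).natAbs = m + 1 by omega] at h1
    · have h2 := sub_dvd_eval_sub (m : ℤ) (-1) g
      rw [sub_neg_eq_add] at h2
      have h3 : (m : ℤ) + 1 ∣ ((m : ℤ) - 1) * ((m : ℤ) + 1) * g.eval (m : ℤ) :=
        dvd_mul_of_dvd_left (dvd_mul_left _ _) _
      rw [show (m : ℤ) ^ 2 * g.eval (m : ℤ) - g.eval (-1) =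
        ((m : ℤ) - 1) * ((m : ℤ) + 1) * g.eval (m : ℤ) + (g.eval (m : ℤ) - g.eval (-1)) by ring]
      exact dvd_add h3 h2

end FA.SchaefferEquation

end
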