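import Mathlib.NumberTheory.ZetaValues
import Mathlib.RingTheory.Localization.Integral
import Mathlib.Algebra.Polynomial.FieldDivision

/-!
# The roots `0`, `-1`, `-1 / 2` of the polynomial of `1 ^ k + ⋯ + m ^ k`

For even `k` they are simple, as `B k` and `B k (1 / 2) = (2 ^ (1 - k) - 1) B k` are not zero; for
odd `k ≥ 3` the first two are exactly double.
-/

set_option autoImplicit false

noncomputable section

namespace FA.SchaefferEquation

open Polynomial Finset

/-- The polynomial with the values `1 ^ k + ⋯ + m ^ k`. -/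
def sumPoly (k : ℕ) : ℚ[X] :=
  C ((k : ℚ) + 1)⁻¹ *
    ((Polynomial.bernoulli (k + 1)).comp (X + 1) - C (_root_.bernoulli (k + 1)))

theorem sumPoly_eval_nat {k : ℕ} (hk : k ≠ 0) (m : ℕ) :
    (sumPoly k).eval (m : ℚ) = ∑ i ∈ range m, ((i : ℚ) + 1) ^ k := by
  have h : ((k : ℚ) + 1) ≠ 0 := by positivity
  have e := Polynomial.sum_range_pow_eq_bernoulli_sub (m + 1) k
  rw [sum_range_succ', Nat.cast_zero, zero_pow hk, add_zero] at e
  simp only [sumPoly, eval_mul, eval_C, eval_sub, eval_comp, eval_add, eval_X, eval_one]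
  rw [inv_mul_eq_div, div_eq_iff h]
  push_cast at e
  linear_combination -e

theorem derivative_sumPoly (k : ℕ) :
    (sumPoly k).derivative = (Polynomial.bernoulli k).comp (X + 1) := by
  have h : ((k : ℚ) + 1) ≠ 0 := by positivity
  rw [sumPoly, derivative_C_mul, derivative_sub, derivative_C, sub_zero, derivative_comp,
    derivative_bernoulli_add_one]
  simp only [derivative_add, derivative_X, derivative_one, add_zero, one_mul, mul_comp,
    add_comp, natCast_comp, one_comp]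
  rw [show ((k : ℚ[X]) + 1) = C ((k : ℚ) + 1) by simp, ← mul_assoc, ← C_mul,
    inv_mul_cancel₀ h, C_1, one_mul]

theorem sumPoly_eval_zero {k : ℕ} (hk : k ≠ 0) : (sumPoly k).eval 0 = 0 := by
  simpa using sumPoly_eval_nat hk 0

theorem sumPoly_eval_neg_one (k : ℕ) : (sumPoly k).eval (-1) = 0 := by
  simp [sumPoly]

theorem sumPoly_eval_neg_half {k : ℕ} (hk : Even k) (hk0 : k ≠ 0) :
    (sumPoly k).eval (-1 / 2) = 0 := by
  have h := bernoulli_eval_one_sub (k + 1) (1 / 2)
  rw [(hk.add_one).neg_one_pow, show (1 : ℚ) - 1 / 2 = 1 / 2 by norm_num] at h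
  have h1 : (Polynomial.bernoulli (k + 1)).eval (1 / 2 : ℚ) = 0 := by linarith
  simp only [sumPoly, eval_mul, eval_C, eval_sub, eval_comp, eval_add, eval_X, eval_one]
  rw [show (-1 : ℚ) / 2 + 1 = 1 / 2 by norm_num, h1,
    bernoulli_eq_zero_of_odd hk.add_one (by omega), sub_zero, mul_zero]

/-- The Bernoulli numbers of even index are not zero. -/
theorem bernoulli_even_ne_zero {k : ℕ} (hk : Even k) : _root_.bernoulli k ≠ 0 := by
  obtain ⟨j, rfl⟩ := hk
  rcases eq_or_ne j 0 with rfl | hj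
  · simp
  intro h
  have hs := hasSum_zeta_nat hj
  rw [two_mul, h, Rat.cast_zero, mul_zero, zero_div] at hs
  refine absurd (le_hasSum hs 1 fun i _ => by positivity) ?_
  norm_num

theorem bernoulli_eval_half_ne_zero {k : ℕ} (hk : Even k) (hk0 : k ≠ 0) :
    (Polynomial.bernoulli k).eval (1 / 2 : ℚ) ≠ 0 := fun h => by
  have h0 := bernoulliFun_mul k two_ne_zero (0 : ℝ)
  have e : bernoulliFun k (1 / 2 : ℝ) = 0 := by
    rw [bernoulliFun, show (1 / 2 : ℝ) = algebraMap ℚ ℝ (1 / 2) by simp,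
      eval_map_apply, h, map_zero]
  simp only [sum_range_succ, sum_range_zero, zero_add, Nat.cast_zero, zero_div,
    Nat.cast_ofNat, Nat.cast_one, mul_zero, e, add_zero, bernoulliFun_eval_zero] at h0
  have hne : (_root_.bernoulli k : ℝ) ≠ 0 := Rat.cast_ne_zero.2 (bernoulli_even_ne_zero hk)
  have h2 : (1 : ℝ) = 2 ^ k / 2 := mul_right_cancel₀ hne (by rw [one_mul]; exact h0)
  have h3 : (2 : ℝ) ^ 2 ≤ 2 ^ k :=
    pow_le_pow_right₀ one_le_two (by obtain ⟨j, rfl⟩ := hk; omega)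
  linarith

/-- The roots of `sumPoly k` for even `k` are simple. -/
theorem sumPoly_simple {k : ℕ} (hk : Even k) (hk0 : k ≠ 0) {r : ℚ}
    (hr : r = 0 ∨ r = -1 ∨ r = -1 / 2) :
    (sumPoly k).eval r = 0 ∧ (sumPoly k).derivative.eval r ≠ 0 := by
  have hB := bernoulli_even_ne_zero hk
  have hk1 : k ≠ 1 := by rintro rfl; simp at hk
  rw [derivative_sumPoly, eval_comp]
  rcases hr with rfl | rfl | rfl
  · refine ⟨sumPoly_eval_zero hk0, ?_⟩
    simpa [← bernoulli_eq_bernoulli'_of_ne_one hk1] using hB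
  · exact ⟨sumPoly_eval_neg_one k, by simpa using hB⟩
  · refine ⟨sumPoly_eval_neg_half hk hk0, ?_⟩
    rw [eval_add, eval_X, eval_one, show (-1 : ℚ) / 2 + 1 = 1 / 2 by norm_num]
    exact bernoulli_eval_half_ne_zero hk hk0

theorem sumPoly_one_simple {r : ℚ} (hr : r = 0 ∨ r = -1) :
    (sumPoly 1).eval r = 0 ∧ (sumPoly 1).derivative.eval r ≠ 0 := by
  rw [derivative_sumPoly, eval_comp, Polynomial.bernoulli_one]
  rcases hr with rfl | rfl
  · exact ⟨sumPoly_eval_zero one_ne_zero, by norm_num⟩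
  · exact ⟨sumPoly_eval_neg_one 1, by norm_num⟩

/-- For odd `k ≥ 3` the roots `0` and `-1` are exactly double. -/
theorem sumPoly_odd_factor {k : ℕ} (hk : Odd k) (hk3 : 3 ≤ k) :
    ∃ g : ℚ[X], sumPoly k = X ^ 2 * (X + 1) ^ 2 * g ∧ g.eval 0 ≠ 0 ∧ g.eval (-1) ≠ 0 := by
  have hB := bernoulli_eq_zero_of_odd hk (by omega)
  have hk1 : Even (k - 1) := Nat.Odd.sub_odd hk odd_one
  have hB' := bernoulli_even_ne_zero hk1
  have hS : sumPoly k ≠ 0 := fun h => by
    have := sumPoly_eval_nat (k := k) (by omega) 1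
    simp [h] at this
  have hd : ∀ r : ℚ, r = 0 ∨ r = -1 → (sumPoly k).derivative.eval r = 0 := fun r hr => by
    rw [derivative_sumPoly, eval_comp]
    rcases hr with rfl | rfl
    · simp [← bernoulli_eq_bernoulli'_of_ne_one (show k ≠ 1 by omega), hB]
    · simp [hB]
  have hdvd : ∀ r : ℚ, r = 0 ∨ r = -1 → (X - C r) ^ 2 ∣ sumPoly k := fun r hr => by
    refine (le_rootMultiplicity_iff hS).1 ((one_lt_rootMultiplicity_iff_isRoot hS).2 ⟨?_, hd r hr⟩)
    rcases hr with rfl | rfl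
    exacts [sumPoly_eval_zero (by omega), sumPoly_eval_neg_one k]
  have hco : IsCoprime ((X - C (0 : ℚ)) ^ 2) ((X - C (-1 : ℚ)) ^ 2) :=
    (isCoprime_X_sub_C_of_isUnit_sub (by norm_num)).pow
  obtain ⟨g, hg⟩ := hco.mul_dvd (hdvd 0 (Or.inl rfl)) (hdvd (-1) (Or.inr rfl))
  rw [C_0, sub_zero, C_neg, C_1, sub_neg_eq_add] at hg
  have hne : ∀ r : ℚ, r = 0 ∨ r = -1 →
      (sumPoly k).derivative.derivative.eval r ≠ 0 := fun r hr => by
    rw [derivative_sumPoly, derivative_comp, derivative_bernoulli]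
    rcases hr with rfl | rfl
    · simp [← bernoulli_eq_bernoulli'_of_ne_one (show k - 1 ≠ 1 by omega), hB',
        (show k ≠ 0 by omega)]
    · simp [hB', (show k ≠ 0 by omega)]
  refine ⟨g, hg, fun h => ?_, fun h => ?_⟩
  · refine hne 0 (Or.inl rfl) ?_
    rw [hg]
    simp [derivative_mul, derivative_pow, h]
  · refine hne (-1) (Or.inr rfl) ?_
    rw [hg]
    simp [derivative_mul, derivative_pow, h]

/-- An integer multiple with integer coefficients. -/
theorem exists_integral_multiple (S : ℚ[X]) :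
    ∃ (D : ℤ) (f : ℤ[X]), D ≠ 0 ∧ f.map (Int.castRingHom ℚ) = C (D : ℚ) * S := by
  obtain ⟨D, hD, he⟩ := IsLocalization.integerNormalization_spec (nonZeroDivisors ℤ) S
  refine ⟨D, IsLocalization.integerNormalization (nonZeroDivisors ℤ) S,
    nonZeroDivisors.ne_zero hD, ?_⟩
  rw [← algebraMap_int_eq, he, zsmul_eq_mul, map_intCast]

/-- A rational root of the multiple, in `ℂ`. -/
theorem aeval_multiple {S : ℚ[X]} {D : ℤ} {f : ℤ[X]}
    (hf : f.map (Int.castRingHom ℚ) = C (D : ℚ) * S) (r : ℚ) :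
    aeval (r : ℂ) f = (((D : ℚ) * S.eval r : ℚ) : ℂ) := by
  rw [← eq_ratCast (algebraMap ℚ ℂ) r, aeval_algebraMap_apply, eq_ratCast, aeval_def,
    ← eval_map, algebraMap_int_eq, hf, eval_mul, eval_C]

end FA.SchaefferEquation

end
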